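/-
GATE-H (S19) / TOP, part 1 (helper32): the torsion module `J₀(N)[m]` with its Galois action in the
form consumed by N0 (`s19Shape_of_order`) and CLOSURE (`HasFinOrder`), and the two formal steps of
the top assembly:

* `s19_of_hasFinOrder`        : a finite Δ-stable order on `J₀(p)[ℓ^k]` gives the frozen `S19` shape;
* `hasFinOrder_of_subquot`    : transport of orders along an equivariant subquotient
                                (the shape of node AUX23, `ℓ ∈ {2, 3}`).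
* `s19_of_core`               : CORE at all admissible levels + AUX23 ⟹ frozen `S19` conclusion.
-/
import Mathlib
import Fermat.Agent.GH.N0.Final
import Fermat.Agent.GH.Closure.Main

set_option autoImplicit false
set_option linter.unusedSectionVars false
set_option linter.unusedVariables false

noncomputable section

namespace Fermat.Agent.GH.Top

open ModularCurve GaloisRep Fermat.Agent.GH.Closure

local notation "Qb" => AlgebraicClosure ℚ
local notation "GQ" => (AlgebraicClosure ℚ ≃ₐ[ℚ] AlgebraicClosure ℚ)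

section Tors

variable (N : ℕ) [NeZero N] (m : ℤ)

/-- `J₀(N)[m]` as a type. -/
abbrev Tors : Type := ↥(Submodule.torsionBy ℤ (JZero N) m)

theorem smul_mem_torsionBy (σ : GQ) (x : JZero N) (hx : x ∈ Submodule.torsionBy ℤ (JZero N) m) :
    σ • x ∈ Submodule.torsionBy ℤ (JZero N) m := by
  rw [Submodule.mem_torsionBy_iff] at hx ⊢
  have h2 := map_zsmul (DistribSMul.toAddMonoidHom (JZero N) σ) m x
  simp only [DistribSMul.toAddMonoidHom_apply] at h2
  rw [← h2, hx, smul_zero]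

/-- the Galois action on `J₀(N)[m]`. -/
def torsAct (σ : GQ) : Tors N m →+ Tors N m where
  toFun x := ⟨σ • (x : JZero N), smul_mem_torsionBy N m σ x x.2⟩
  map_zero' := Subtype.ext (smul_zero σ)
  map_add' x y := Subtype.ext (smul_add σ (x : JZero N) y)

@[simp] theorem coe_torsAct (σ : GQ) (x : Tors N m) :
    ((torsAct N m σ x : Tors N m) : JZero N) = σ • (x : JZero N) := rfl

theorem torsAct_one (x : Tors N m) : torsAct N m 1 x = x :=
  Subtype.ext (one_smul GQ (x : JZero N))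

theorem torsAct_mul (σ τ : GQ) (x : Tors N m) :
    torsAct N m (σ * τ) x = torsAct N m σ (torsAct N m τ x) :=
  Subtype.ext (mul_smul σ τ (x : JZero N))

end Tors

section Order

variable {ℓ : ℕ} [Fact ℓ.Prime]

/-- finite generation gives integrality of the values. -/
theorem isDeltaOrder_of_hfg {M : Type*} [AddCommGroup M] (act : GQ → M →+ M)
    (H : Subalgebra (Rl ℓ) (M → Qb))
    (heq : ∀ f ∈ H, ∀ (σ : GQ) (x : M), f (act σ x) = σ (f x))
    (hfg : Module.Finite (Rl ℓ) H)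
    (hsep : ∀ x y : M, x ≠ y → ∃ f ∈ H, f x ≠ f y)
    (hΔ : ∀ f ∈ H, ∃ (n : ℕ) (a b : Fin n → H), ∀ x y : M,
      f (x + y) = ∑ i, ((a i : M → Qb) x) * ((b i : M → Qb) y)) :
    HasFinOrder ℓ act := by
  refine ⟨H, ⟨heq, ?_, hsep, hΔ⟩, hfg⟩
  intro f hf x
  have h1 : IsIntegral (Rl ℓ) (⟨f, hf⟩ : H) := IsIntegral.of_finite (Rl ℓ) _
  have h2 := h1.map ((Pi.evalAlgHom (Rl ℓ) (fun _ : M => Qb) x).comp H.val)
  exact h2

/-- **TOP, last step**: a finite Δ-stable order on `J₀(p)[ℓ^k]` gives the frozen `S19` shape. -/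
theorem s19_of_hasFinOrder (p : ℕ) [NeZero p] (k : ℕ)
    [Finite (Tors p ((ℓ : ℤ) ^ k))]
    (h : HasFinOrder ℓ (torsAct p ((ℓ : ℤ) ^ k))) :
    ∃ (H : Type) (_ : CommRing H) (_ : HopfAlgebra (GaloisRep.ratLocalizedAt ℓ) H),
      Module.Finite (GaloisRep.ratLocalizedAt ℓ) H ∧ Module.Flat (GaloisRep.ratLocalizedAt ℓ) H ∧
      Coalgebra.IsCocomm (GaloisRep.ratLocalizedAt ℓ) H ∧
      ∃ e : WithConv (H →ₐ[GaloisRep.ratLocalizedAt ℓ] AlgebraicClosure ℚ) ≃
          ↥(Submodule.torsionBy ℤ (JZero p) ((ℓ : ℤ) ^ k)),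
        (∀ f g, e (f * g) = e f + e g) ∧
        ∀ (σ : AlgebraicClosure ℚ ≃ₐ[ℚ] AlgebraicClosure ℚ)
          (f g : WithConv (H →ₐ[GaloisRep.ratLocalizedAt ℓ] AlgebraicClosure ℚ)),
          (∀ h : H, g h = σ (f h)) → ((e g : JZero p)) = σ • (e f : JZero p) := by
  obtain ⟨H, hH, hfin⟩ := h
  refine Fermat.Agent.GH.N0.s19Shape_of_order p k H ?_ hfin hH.hsep hH.hΔ
  intro f hf σ x y hxy
  have : y = torsAct p ((ℓ : ℤ) ^ k) σ x := Subtype.ext hxy
  rw [this]
  exact hH.heq f hf σ x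

/-- **Transport along an equivariant subquotient** (`S ≤ J₀(N')[m']` Galois-stable, `φ : S → J₀(N)`
equivariant with image `J₀(N)[m]`). -/
theorem hasFinOrder_of_subquot (N N' : ℕ) [NeZero N] [NeZero N'] (m m' : ℤ)
    [Finite (Tors N' m')]
    (h : HasFinOrder ℓ (torsAct N' m'))
    (S : AddSubgroup (JZero N')) (φ : S →+ JZero N)
    (hS : ∀ s ∈ S, m' • s = 0)
    (hstab : ∀ (σ : GQ) (s : JZero N'), s ∈ S → σ • s ∈ S)
    (hφ : ∀ s : S, m • φ s = 0)
    (hsurj : ∀ y : JZero N, m • y = 0 → ∃ s : S, φ s = y)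
    (heqv : ∀ (σ : GQ) (s : S) (hs : σ • (s : JZero N') ∈ S), φ ⟨σ • (s : JZero N'), hs⟩ = σ • φ s) :
    HasFinOrder ℓ (torsAct N m) := by
  -- the action on `S`
  let actS : GQ → S →+ S := fun σ =>
    { toFun := fun s => ⟨σ • (s : JZero N'), hstab σ s s.2⟩
      map_zero' := Subtype.ext (smul_zero σ)
      map_add' := fun x y => Subtype.ext (smul_add σ (x : JZero N') y) }
  -- `S ↪ J₀(N')[m']`
  let j : S →+ Tors N' m' :=
    { toFun := fun s => ⟨(s : JZero N'), (Submodule.mem_torsionBy_iff _ _).2 (hS s s.2)⟩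
      map_zero' := rfl
      map_add' := fun _ _ => rfl }
  have hj : Function.Injective j := by
    intro a b hab
    exact Subtype.ext (congrArg (fun z : Tors N' m' => (z : JZero N')) hab)
  have hS1 : HasFinOrder ℓ actS := h.of_injective j hj (fun σ s => rfl)
  have : Finite S := Finite.of_injective j hj
  -- `S ↠ J₀(N)[m]`
  let π : S →+ Tors N m :=
    { toFun := fun s => ⟨φ s, (Submodule.mem_torsionBy_iff _ _).2 (hφ s)⟩
      map_zero' := Subtype.ext (map_zero φ)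
      map_add' := fun a b => Subtype.ext (map_add φ a b) }
  have hπ : Function.Surjective π := by
    intro y
    obtain ⟨s, hs⟩ := hsurj (y : JZero N) ((Submodule.mem_torsionBy_iff _ _).1 y.2)
    exact ⟨s, Subtype.ext hs⟩
  exact hS1.of_surjective π hπ (fun σ s => Subtype.ext (heqv σ s (hstab σ s s.2)))

end Order

section Main

variable {ℓ : ℕ} [Fact ℓ.Prime]

/-- **TOP (formal part).**  CORE at every admissible level, the finiteness of the torsion, and AUX23
(every `J₀(p)[ℓ^k]` is an equivariant subquotient of some `J₀(N')[ℓ^(k+v)]` at an admissible level)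
give the frozen `S19` conclusion. -/
theorem s19_of_core
    (hcore : ∀ (N' : ℕ) [NeZero N'] (k' : ℕ), ¬ ℓ ∣ N' → (ℓ = 2 → 3 ∣ N') → (ℓ = 3 → 2 ∣ N') →
      HasFinOrder ℓ (torsAct N' ((ℓ : ℤ) ^ k')))
    (hfin : ∀ (N' : ℕ) [NeZero N'] (k' : ℕ), Finite (Tors N' ((ℓ : ℤ) ^ k')))
    (p : ℕ) [NeZero p] (k : ℕ)
    (haux : ∃ (N' : ℕ) (_ : NeZero N') (v : ℕ), ¬ ℓ ∣ N' ∧ (ℓ = 2 → 3 ∣ N') ∧ (ℓ = 3 → 2 ∣ N') ∧
      ∃ (S : AddSubgroup (JZero N')) (φ : S →+ JZero p),
        (∀ s ∈ S, ℓ ^ (k + v) • s = 0) ∧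
        (∀ (σ : GQ) (s : JZero N'), s ∈ S → σ • s ∈ S) ∧
        (∀ s : S, ℓ ^ k • φ s = 0) ∧
        (∀ y : JZero p, ℓ ^ k • y = 0 → ∃ s : S, φ s = y) ∧
        (∀ (σ : GQ) (s : S) (hs : σ • (s : JZero N') ∈ S),
          φ ⟨σ • (s : JZero N'), hs⟩ = σ • φ s)) :
    ∃ (H : Type) (_ : CommRing H) (_ : HopfAlgebra (GaloisRep.ratLocalizedAt ℓ) H),
      Module.Finite (GaloisRep.ratLocalizedAt ℓ) H ∧ Module.Flat (GaloisRep.ratLocalizedAt ℓ) H ∧
      Coalgebra.IsCocomm (GaloisRep.ratLocalizedAt ℓ) H ∧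
      ∃ e : WithConv (H →ₐ[GaloisRep.ratLocalizedAt ℓ] AlgebraicClosure ℚ) ≃
          ↥(Submodule.torsionBy ℤ (JZero p) ((ℓ : ℤ) ^ k)),
        (∀ f g, e (f * g) = e f + e g) ∧
        ∀ (σ : AlgebraicClosure ℚ ≃ₐ[ℚ] AlgebraicClosure ℚ)
          (f g : WithConv (H →ₐ[GaloisRep.ratLocalizedAt ℓ] AlgebraicClosure ℚ)),
          (∀ h : H, g h = σ (f h)) → ((e g : JZero p)) = σ • (e f : JZero p) := by
  obtain ⟨N', hN', v, h1, h2, h3, S, φ, hS, hstab, hφ, hsurj, heqv⟩ := haux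
  have := hfin N' (k + v)
  have := hfin p k
  have hc := hcore N' (k + v) h1 h2 h3
  have hnat : ∀ (n : ℕ) {J : Type} [AddCommGroup J] (x : J),
      ((ℓ : ℤ) ^ n) • x = ℓ ^ n • x := by
    intro n J _ x
    rw [← Nat.cast_pow, natCast_zsmul]
  refine s19_of_hasFinOrder p k (hasFinOrder_of_subquot p N' _ _ hc S φ ?_ hstab ?_ ?_ heqv)
  · intro s hs
    rw [hnat]
    exact hS s hs
  · intro s
    rw [hnat]
    exact hφ s
  · intro y hy
    rw [hnat] at hy
    exact hsurj y hy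

end Main

end Fermat.Agent.GH.Top
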