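/-
GATE-H (S19) / TOP, part 2 (helper32): the CORE chain in hypothesis form.

For a level `N`, a valuation ring `R.A` of `ℚ̄`, a reduction frame `R, H` of `ℚ̄(X₀(N))`, the node
contracts (`CoordSpec`, `CoordInj`, `ChartSupply`, `AddSpec`), the GAL contract `GalFrame` for the
decomposition / inertia groups of `R.A`, and the descent node N1 (as a hypothesis `hN1`, with the
exact binders of `exists_order_of_generators`), the Galois module `J₀(N)[m]` carries a finite
Δ-stable order: `HasFinOrder ℓ (torsAct N m)`.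
-/
import Mathlib
import Fermat.Agent.GH.Top.Tors
import Fermat.Agent.GH.CoreAsm.Main

set_option autoImplicit false
set_option linter.unusedSectionVars false
set_option linter.unusedVariables false

noncomputable section

open AlgebraicCurve

namespace Fermat.Agent.GH.Top

open ModularCurve GaloisRep Fermat.Agent.GH.Closure Fermat.Agent.GH
open Fermat.Agent.RRh45 Fermat.Agent.GJ.S37MinDiv Fermat.Agent.GJ.J1 Fermat.Agent.GJ.S37LSpace
  Fermat.Agent.GJ.S37ROfSurj

local notation "Qb" => AlgebraicClosure ℚ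
local notation "GQ" => (AlgebraicClosure ℚ ≃ₐ[ℚ] AlgebraicClosure ℚ)

variable (N : ℕ) [NeZero N] (m : ℤ)

/-- `J₀(N)[m]` as an additive subgroup of `Pic⁰`. -/
def torsSub : AddSubgroup (Pic0 Qb (modularFunctionFieldBar N)) :=
  (Submodule.torsionBy ℤ (JZero N) m).toAddSubgroup

theorem torsSub_stable (σ : GQ) (x : Pic0 Qb (modularFunctionFieldBar N)) (hx : x ∈ torsSub N m) :
    σ • x ∈ torsSub N m :=
  smul_mem_torsionBy N m σ x hx

/-- the identification `J₀(N)[m] → torsSub`. -/
def toTorsSub : Tors N m →+ torsSub N m where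
  toFun x := ⟨(x : JZero N), x.2⟩
  map_zero' := rfl
  map_add' _ _ := rfl

theorem toTorsSub_injective : Function.Injective (toTorsSub N m) := by
  intro a b hab
  exact Subtype.ext (congrArg (fun z : torsSub N m => (z : JZero N)) hab)

theorem toTorsSub_surjective : Function.Surjective (toTorsSub N m) := fun y => ⟨⟨y.1, y.2⟩, rfl⟩

instance [Finite (Tors N m)] : Finite (torsSub N m) :=
  Finite.of_surjective (toTorsSub N m) (toTorsSub_surjective N m)

variable {ℓ : ℕ} [Fact ℓ.Prime]
variable {k Ft : Type} [Field k] [Field Ft] [Algebra k Ft]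
variable {R : RedData Qb (modularFunctionFieldBar N) k Ft} {g c : ℤ}
variable [FiniteResidues Qb (modularFunctionFieldBar N)]
  [HasPrincipalDivisors Qb (modularFunctionFieldBar N)]
  [Nonempty (Place Qb (modularFunctionFieldBar N))]
variable [FiniteResidues k Ft] [HasPrincipalDivisors k Ft] [Nonempty (Place k Ft)]
variable [Infinite k]

/-- **CORE chain.**  Frame + node contracts + GAL contract + descent (N1) ⟹ a finite Δ-stable order on
`J₀(N)[m]`.  `hN1` is the statement of `exists_order_of_generators` at `M := torsSub N m`. -/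
theorem hasFinOrder_of_frame [Finite (Tors N m)] {H : LSpaceHyp R g c} {n : ℕ}
    (G : GalFrame H n (R.A.decompositionSubgroup ℚ) (R.A.inertiaSubgroupIn ℚ))
    (hco : CoordSpec H n) (hinj : CoordInj H n) (hsup : ChartSupply H n) (hadd : AddSpec H n)
    (hN1 : ∀ 𝓖 : Set (torsSub N m → Qb),
      (∀ f ∈ 𝓖, ∀ x, f x ∈ R.A) →
      (∀ f ∈ 𝓖, ∀ τ ∈ R.A.inertiaSubgroupIn ℚ, ∀ x,
        f (actM (torsSub_stable N m) τ x) = τ (f x)) →
      (∀ f ∈ 𝓖, ∀ σ ∈ R.A.decompositionSubgroup ℚ,
        (fun x => σ (f (actM (torsSub_stable N m) σ⁻¹ x))) ∈ 𝓖) →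
      (∀ x y : torsSub N m, x ≠ y → ∃ f ∈ 𝓖, f x ≠ f y) →
      (∀ f ∈ 𝓖, ∃ (r : ℕ) (a b : Fin r → (torsSub N m → Qb)),
        (∀ i, a i ∈ Algebra.adjoin R.A 𝓖) ∧ (∀ i, b i ∈ Algebra.adjoin R.A 𝓖) ∧
        ∀ x y, f (x + y) = ∑ i, a i x * b i y) →
      HasFinOrder ℓ (actM (torsSub_stable N m))) :
    HasFinOrder ℓ (torsAct N m) := by
  obtain ⟨h1, h2, h3, h4, h5⟩ :=
    core_asm G (M := torsSub N m) (torsSub_stable N m) hco hinj hsup hadd
  have h := hN1 (coreGens G (torsSub N m)) h1 h2 h3 h4 h5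
  exact h.of_injective (toTorsSub N m) (toTorsSub_injective N m) (fun σ x => rfl)

end Fermat.Agent.GH.Top
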