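/-
GATE-H (S19) / TOP, part 3 (helper32): THE PLUG.  Everything that is on main (INST helper85, L helper38,
AUX23 helper72, CLOSURE helper57, N0 helper5/helper30, torsion count/level helper18, ORD/CORE-ASM)
is composed here; the three nodes still in flight enter as the Prop-valued binders

* `GalNode ℓ`  : the GAL contract `GalFrame` in the concrete frame `redDataBar N A`;
* `AddNode ℓ`  : the ADD contract `AddSpec` in the concrete frame;
* `N1Node ℓ`   : the descent node (`exists_order_of_generators`, binders of board 4600, conclusion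
                 `HasFinOrder`).

`s19_of_nodes : GalNode ℓ → AddNode ℓ → N1Node ℓ → frozen S19 conclusion`.
-/
import Mathlib
import Fermat.Agent.GH.Top.Core
import Fermat.Agent.GH.L.Final
import Fermat.Agent.GH.L.Inj
import Fermat.Agent.GH.Inst.Main
import Fermat.Agent.GH.Aux23.Data
import Fermat.Agent.GH.TorsionLevel

set_option autoImplicit false
set_option linter.unusedSectionVars false
set_option linter.unusedVariables false
set_option synthInstance.maxHeartbeats 400000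
set_option maxHeartbeats 1000000

noncomputable section

open AlgebraicCurve

namespace Fermat.Agent.GH.Top

open ModularCurve GaloisRep Fermat.Agent.GH.Closure Fermat.Agent.GH Fermat.Agent.GH.Inst
open Fermat.Agent.RRh45 Fermat.Agent.GJ.S37MinDiv Fermat.Agent.GJ.J1 Fermat.Agent.GJ.J1.Val
  Fermat.Agent.GJ.S37LSpace Fermat.Agent.GJ.S37ROfSurj

local notation "Qb" => AlgebraicClosure ℚ
local notation "GQ" => (AlgebraicClosure ℚ ≃ₐ[ℚ] AlgebraicClosure ℚ)

/-- every prime has a place of `ℚ̄` over it (Chevalley). -/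
theorem exists_place_over {q : ℕ} (hq : q.Prime) :
    ∃ P : ValuationSubring Qb, P.LiesOverPrime q := by
  let Z : Subring Qb := (Int.castRingHom Qb).range
  have hqZ : (q : Qb) ∈ Z := ⟨(q : ℤ), by simp⟩
  let I : Ideal Z := Ideal.span {⟨(q : Qb), hqZ⟩}
  have hI : I ≠ ⊤ := by
    intro htop
    have h1 : (1 : Z) ∈ I := by rw [htop]; trivial
    obtain ⟨a, ha⟩ := Ideal.mem_span_singleton'.mp h1
    obtain ⟨n, hn⟩ := a.2
    have h2 : ((n * q : ℤ) : Qb) = ((1 : ℤ) : Qb) := by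
      have h3 := congrArg (fun z : Z => (z : Qb)) ha
      simp only [Subring.coe_mul, Subring.coe_one] at h3
      rw [← hn] at h3
      push_cast
      simpa using h3
    have h4 : n * (q : ℤ) = 1 := Int.cast_injective h2
    have h5 : (q : ℤ) ∣ 1 := Dvd.intro_left n h4
    have h6 : q ∣ 1 := by exact_mod_cast h5
    exact hq.one_lt.ne' (Nat.dvd_one.mp h6)
  obtain ⟨B, -, hB⟩ := Ideal.image_subset_nonunits_valuationSubring I hI
  refine ⟨B, ?_⟩
  have hmem : (⟨(q : Qb), hqZ⟩ : Z) ∈ I := Ideal.subset_span rfl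
  exact hB ⟨_, hmem, rfl⟩

variable (ℓ : ℕ)

/-- **node GAL** in the concrete frame. -/
def GalNode : Prop :=
  ∀ (N : ℕ) [NeZero N] (A : ValuationSubring Qb), A.LiesOverPrime ℓ → ¬ ℓ ∣ N →
    (ℓ = 2 → 3 ∣ N) → (ℓ = 3 → 2 ∣ N) →
    ∀ (g c : ℤ) (H : LSpaceHyp (redDataBar N A) g c) (n : ℕ), (n : ℤ) = g →
      haveI := finiteResidues_bar N
      haveI := finiteResidues_fresBar N A
      haveI := hasPrincipalDivisors_fresBar N A
      haveI := nonempty_place_fresBar N A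
      haveI := infinite_kA A
      Nonempty (GalFrame H n (A.decompositionSubgroup ℚ) (A.inertiaSubgroupIn ℚ))

/-- **node ADD** in the concrete frame. -/
def AddNode : Prop :=
  ∀ (N : ℕ) [NeZero N] (A : ValuationSubring Qb), A.LiesOverPrime ℓ → ¬ ℓ ∣ N →
    (ℓ = 2 → 3 ∣ N) → (ℓ = 3 → 2 ∣ N) →
    ∀ (g c : ℤ) (H : LSpaceHyp (redDataBar N A) g c) (n : ℕ), (n : ℤ) = g →
      haveI := finiteResidues_bar N
      haveI := finiteResidues_fresBar N A
      haveI := hasPrincipalDivisors_fresBar N A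
      haveI := nonempty_place_fresBar N A
      haveI := infinite_kA A
      AddSpec H n

/-- **node N1** (descent): the binders of `exists_order_of_generators`. -/
def N1Node [Fact ℓ.Prime] : Prop :=
  ∀ (M : Type) [AddCommGroup M] [Finite M] (act : GQ → M →+ M),
    (∀ x, act 1 x = x) → (∀ σ τ x, act (σ * τ) x = act σ (act τ x)) →
    (∃ U : Subgroup GQ, IsOpen (U : Set GQ) ∧ ∀ σ ∈ U, ∀ x, act σ x = x) →
    ∀ (A : ValuationSubring Qb), (ℓ : Qb) ∈ A.nonunits → ∀ 𝓖 : Set (M → Qb),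
      (∀ f ∈ 𝓖, ∀ x, f x ∈ A) →
      (∀ f ∈ 𝓖, ∀ τ ∈ A.inertiaSubgroupIn ℚ, ∀ x, f (act τ x) = τ (f x)) →
      (∀ f ∈ 𝓖, ∀ σ ∈ A.decompositionSubgroup ℚ, (fun x => σ (f (act σ⁻¹ x))) ∈ 𝓖) →
      (∀ x y : M, x ≠ y → ∃ f ∈ 𝓖, f x ≠ f y) →
      (∀ f ∈ 𝓖, ∃ (r : ℕ) (a b : Fin r → (M → Qb)),
        (∀ i, a i ∈ Algebra.adjoin A 𝓖) ∧ (∀ i, b i ∈ Algebra.adjoin A 𝓖) ∧
        ∀ x y, f (x + y) = ∑ i, a i x * b i y) →
      HasFinOrder ℓ act

variable {ℓ} [Fact ℓ.Prime]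

/-- the finite-level hypothesis for `J₀(N)[ℓ^k]` (helper18 `TorsionLevel.exists_level_torsion`). -/
theorem hlev_torsSub (N : ℕ) [NeZero N] (k : ℕ) :
    ∃ U : Subgroup GQ, IsOpen (U : Set GQ) ∧
      ∀ σ ∈ U, ∀ x, actM (torsSub_stable N ((ℓ : ℤ) ^ k)) σ x = x := by
  have hℓ : ℓ.Prime := Fact.out
  obtain ⟨E, hE, hfix⟩ :=
    Fermat.Agent.GH.TorsionLevel.exists_level_torsion N (ℓ ^ k) (pow_ne_zero k hℓ.ne_zero)
  refine ⟨E.fixingSubgroup, IntermediateField.fixingSubgroup_isOpen E, fun σ hσ x => ?_⟩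
  rw [IntermediateField.mem_fixingSubgroup_iff] at hσ
  apply Subtype.ext
  show σ • (x : JZero N) = (x : JZero N)
  refine hfix σ hσ _ ?_
  have hx : (x : JZero N) ∈ Submodule.torsionBy ℤ (JZero N) ((ℓ : ℤ) ^ k) := x.2
  rw [Submodule.mem_torsionBy_iff] at hx
  rw [Nat.cast_pow]
  exact hx

/-- **CORE** at an admissible level. -/
theorem core_of_nodes (hG : GalNode ℓ) (hA : AddNode ℓ) (hN : N1Node ℓ)
    (N : ℕ) [NeZero N] (k : ℕ) (h1 : ¬ ℓ ∣ N) (h2 : ℓ = 2 → 3 ∣ N) (h3 : ℓ = 3 → 2 ∣ N) :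
    HasFinOrder ℓ (torsAct N ((ℓ : ℤ) ^ k)) := by
  have hℓ : ℓ.Prime := Fact.out
  obtain ⟨A, hAℓ⟩ := exists_place_over hℓ
  obtain ⟨g, c, n, H, hn⟩ := exists_frame_bar N A hℓ h1 h2 h3 hAℓ
  have := finiteResidues_bar N
  have := finiteResidues_fresBar N A
  have := hasPrincipalDivisors_fresBar N A
  have := nonempty_place_fresBar N A
  have := infinite_kA A
  have := Fermat.Agent.GH.TorsionLevel.finite_torsionBy_pow N ℓ hℓ.ne_zero k
  obtain ⟨G⟩ := hG N A hAℓ h1 h2 h3 g c H n hn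
  have hadd : AddSpec H n := hA N A hAℓ h1 h2 h3 g c H n hn
  refine hasFinOrder_of_frame N ((ℓ : ℤ) ^ k) (R := redDataBar N A) (H := H) (n := n) G
    (Fermat.Agent.GH.L.coordSpec_main H hn) (Fermat.Agent.GH.L.coordInj_main H n)
    (Fermat.Agent.GH.L.chartSupply_main H hn.le) hadd ?_
  intro 𝓖 a b c d e
  exact hN _ (actM (torsSub_stable N ((ℓ : ℤ) ^ k))) (actM_one _) (actM_mul _)
    (hlev_torsSub N k) A hAℓ 𝓖 a b c d e

/-- **S19 from the three nodes in flight.** -/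
theorem s19_of_nodes (hG : GalNode ℓ) (hA : AddNode ℓ) (hN : N1Node ℓ)
    (p : ℕ) [NeZero p] (hℓp : ¬ ℓ ∣ p) (k : ℕ) :
    ∃ (H : Type) (_ : CommRing H) (_ : HopfAlgebra (GaloisRep.ratLocalizedAt ℓ) H),
      Module.Finite (GaloisRep.ratLocalizedAt ℓ) H ∧ Module.Flat (GaloisRep.ratLocalizedAt ℓ) H ∧
      Coalgebra.IsCocomm (GaloisRep.ratLocalizedAt ℓ) H ∧
      ∃ e : WithConv (H →ₐ[GaloisRep.ratLocalizedAt ℓ] AlgebraicClosure ℚ) ≃
          ↥(Submodule.torsionBy ℤ (JZero p) ((ℓ : ℤ) ^ k)),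
        (∀ f g, e (f * g) = e f + e g) ∧
        ∀ (σ : AlgebraicClosure ℚ ≃ₐ[ℚ] AlgebraicClosure ℚ)
          (f g : WithConv (H →ₐ[GaloisRep.ratLocalizedAt ℓ] AlgebraicClosure ℚ)),
          (∀ h : H, g h = σ (f h)) → ((e g : JZero p)) = σ • (e f : JZero p) := by
  have hℓ : ℓ.Prime := Fact.out
  refine s19_of_core (fun N' _ k' h1 h2 h3 => core_of_nodes hG hA hN N' k' h1 h2 h3)
    (fun N' _ k' => Fermat.Agent.GH.TorsionLevel.finite_torsionBy_pow N' ℓ hℓ.ne_zero k') p k ?_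
  exact Fermat.Agent.GH.Aux23.aux23 p ℓ hℓ hℓp k

end Fermat.Agent.GH.Top
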