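/-
GATE-H (S19) / TOP, part 4 (helper32): node N1 is a theorem — `n1Node : N1Node ℓ` from helper24's
`N1Inst.exists_order_of_generators` (which wraps helper71's abstract descent).  Hence
`s19_of_gal_add : GalNode ℓ → AddNode ℓ → frozen S19 conclusion`.
-/
import Mathlib
import Fermat.Agent.GH.Top.Plug
import Fermat.Agent.GH.N1Inst.Main

set_option autoImplicit false
set_option linter.unusedSectionVars false
set_option linter.unusedVariables false

noncomputable section

namespace Fermat.Agent.GH.Top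

open ModularCurve GaloisRep Fermat.Agent.GH.Closure Fermat.Agent.GH

local notation "Qb" => AlgebraicClosure ℚ
local notation "GQ" => (AlgebraicClosure ℚ ≃ₐ[ℚ] AlgebraicClosure ℚ)

variable {ℓ : ℕ} [Fact ℓ.Prime]

/-- **node N1 is a theorem.** -/
theorem n1Node : N1Node ℓ := by
  intro M _ _ act hone hmul hlev A hA 𝓖 hval hI hD hsep hΔ
  obtain ⟨H, -, heq, hfg, hsep', hΔ'⟩ :=
    Fermat.Agent.GH.N1Inst.exists_order_of_generators (A := A) (𝓖 := 𝓖) act hone hmul hlev hA
      hval hI hD hsep hΔ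
  exact isDeltaOrder_of_hfg act H heq hfg hsep' hΔ'

/-- **S19 from the two nodes in flight** (GAL, ADD). -/
theorem s19_of_gal_add (hG : GalNode ℓ) (hA : AddNode ℓ)
    (p : ℕ) [NeZero p] (hℓp : ¬ ℓ ∣ p) (k : ℕ) :
    ∃ (H : Type) (_ : CommRing H) (_ : HopfAlgebra (GaloisRep.ratLocalizedAt ℓ) H),
      Module.Finite (GaloisRep.ratLocalizedAt ℓ) H ∧ Module.Flat (GaloisRep.ratLocalizedAt ℓ) H ∧
      Coalgebra.IsCocomm (GaloisRep.ratLocalizedAt ℓ) H ∧
      ∃ e : WithConv (H →ₐ[GaloisRep.ratLocalizedAt ℓ] AlgebraicClosure ℚ) ≃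
          ↥(Submodule.torsionBy ℤ (JZero p) ((ℓ : ℤ) ^ k)),
        (∀ f g, e (f * g) = e f + e g) ∧
        ∀ (σ : AlgebraicClosure ℚ ≃ₐ[ℚ] AlgebraicClosure ℚ)
          (f g : WithConv (H →ₐ[GaloisRep.ratLocalizedAt ℓ] AlgebraicClosure ℚ)),
          (∀ h : H, g h = σ (f h)) → ((e g : JZero p)) = σ • (e f : JZero p) :=
  s19_of_nodes hG hA n1Node p hℓp k

end Fermat.Agent.GH.Top
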