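/-
GATE-H (S19) / TOP, part 5 (helper32): node ADD is a theorem — `addNode : AddNode ℓ` from helper92's
`Add.addSpec_main` (ADD: helper92, helper37, helper33; V: helper48, helper82; A: helper99) with
`harch` from INST (helper85).  Hence `s19_of_gal : GalNode ℓ → frozen S19 conclusion`.
-/
import Mathlib
import Fermat.Agent.GH.Top.N1Plug
import Fermat.Agent.GH.Add.DiscCalcOfV

set_option autoImplicit false
set_option linter.unusedSectionVars false
set_option linter.unusedVariables false
set_option synthInstance.maxHeartbeats 400000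
set_option maxHeartbeats 1000000

noncomputable section

namespace Fermat.Agent.GH.Top

open ModularCurve GaloisRep Fermat.Agent.GH.Closure Fermat.Agent.GH Fermat.Agent.GH.Inst

local notation "Qb" => AlgebraicClosure ℚ
local notation "GQ" => (AlgebraicClosure ℚ ≃ₐ[ℚ] AlgebraicClosure ℚ)

variable {ℓ : ℕ} [Fact ℓ.Prime]

/-- **node ADD is a theorem.** -/
theorem addNode : AddNode ℓ := by
  intro N _ A hA h1 h2 h3 g c H n hn
  have hℓ : ℓ.Prime := Fact.out
  have := finiteResidues_bar N
  have := finiteResidues_fresBar N A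
  have := hasPrincipalDivisors_fresBar N A
  have := nonempty_place_fresBar N A
  have := infinite_kA A
  exact Fermat.Agent.GH.Add.addSpec_main H hn (harch_bar N A hℓ hA)

/-- **S19 from the single node in flight** (GAL). -/
theorem s19_of_gal (hG : GalNode ℓ)
    (p : ℕ) [NeZero p] (hℓp : ¬ ℓ ∣ p) (k : ℕ) :
    ∃ (H : Type) (_ : CommRing H) (_ : HopfAlgebra (GaloisRep.ratLocalizedAt ℓ) H),
      Module.Finite (GaloisRep.ratLocalizedAt ℓ) H ∧ Module.Flat (GaloisRep.ratLocalizedAt ℓ) H ∧
      Coalgebra.IsCocomm (GaloisRep.ratLocalizedAt ℓ) H ∧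
      ∃ e : WithConv (H →ₐ[GaloisRep.ratLocalizedAt ℓ] AlgebraicClosure ℚ) ≃
          ↥(Submodule.torsionBy ℤ (JZero p) ((ℓ : ℤ) ^ k)),
        (∀ f g, e (f * g) = e f + e g) ∧
        ∀ (σ : AlgebraicClosure ℚ ≃ₐ[ℚ] AlgebraicClosure ℚ)
          (f g : WithConv (H →ₐ[GaloisRep.ratLocalizedAt ℓ] AlgebraicClosure ℚ)),
          (∀ h : H, g h = σ (f h)) → ((e g : JZero p)) = σ • (e f : JZero p) :=
  s19_of_gal_add hG addNode p hℓp k

end Fermat.Agent.GH.Top
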